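/-
S15, block A, part A-RED, node SEP (second team helper47).  Integrality of `b * u ^ N` over every
subring containing `u` and `Q = a * u`, for a pair `(a, b)` satisfying a modular equation of level
`N`.  Mathlib + `Dich`.
-/
import Fermat.Agent.S15.A.Red.Dich

set_option autoImplicit false

namespace Fermat.Agent.S15.A.Red.SepAlt

open Polynomial

variable {F : Type*} [Field F]

/-- a monic relation with coefficients in `P`. -/
theorem isIntegral_of_rel (P : Subring F) (n : ℕ) (r : ℕ → F) (hr : ∀ k, r k ∈ P) {s y : F}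
    (hs : s ∈ P) (h : y ^ (n + 1) + (∑ k ∈ Finset.range (n + 1), r k * y ^ k + s) = 0) :
    IsIntegral P y := by
  set R : P[X] := ∑ k ∈ Finset.range (n + 1), C (⟨r k, hr k⟩ : P) * X ^ k + C (⟨s, hs⟩ : P) with hR
  have hdeg : R.degree < ((n + 1 : ℕ) : WithBot ℕ) := by
    rw [← Polynomial.mem_degreeLT]
    refine Submodule.add_mem _ (Submodule.sum_mem _ fun b hb => ?_) ?_
    · rw [Polynomial.mem_degreeLT]
      exact lt_of_le_of_lt (degree_C_mul_X_pow_le _ _) (by exact_mod_cast Finset.mem_range.1 hb)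
    · rw [Polynomial.mem_degreeLT]
      exact lt_of_le_of_lt degree_C_le (by exact_mod_cast Nat.succ_pos n)
  refine ⟨X ^ (n + 1) + R, monic_X_pow_add hdeg, ?_⟩
  rw [hR]
  simp only [eval₂_add, eval₂_pow, eval₂_X, eval₂_finsetSum, eval₂_mul, eval₂_C]
  exact h

/-- `b * u ^ N` is integral over every subring containing `u` and `a * u`. -/
theorem isIntegral_mul_pow (P : Subring F) {N : ℕ} (hN : 1 ≤ N) {c : ℕ → ℕ → ℤ} {a b u Q : F}
    (hu : u ∈ P) (hQ : Q ∈ P) (hau : a * u = Q) (h : ModEq N c a b) :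
    IsIntegral P (b * u ^ N) := by
  obtain ⟨m, rfl⟩ : ∃ m, N = m + 1 := ⟨N - 1, by omega⟩
  refine isIntegral_of_rel P (m + 1)
    (fun k => ∑ i ∈ Finset.range (m + 1 + 1),
      ((c i k : ℤ) : F) * Q ^ i * u ^ ((m + 1) * (m + 1 + 1) - i - (m + 1) * k))
    (fun k => sum_mem fun i _ => mul_mem (mul_mem (intCast_mem P _) (pow_mem hQ _)) (pow_mem hu _))
    (s := Q ^ (m + 1 + 1) * u ^ ((m + 1 + 1) * m)) (mul_mem (pow_mem hQ _) (pow_mem hu _)) ?_
  unfold ModEq at h
  have key : (b * u ^ (m + 1)) ^ (m + 1 + 1) +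
      (∑ k ∈ Finset.range (m + 1 + 1), (∑ i ∈ Finset.range (m + 1 + 1),
        ((c i k : ℤ) : F) * Q ^ i * u ^ ((m + 1) * (m + 1 + 1) - i - (m + 1) * k)) *
          (b * u ^ (m + 1)) ^ k + Q ^ (m + 1 + 1) * u ^ ((m + 1 + 1) * m)) =
      u ^ ((m + 1) * (m + 1 + 1)) * (a ^ (m + 1 + 1) + b ^ (m + 1 + 1) +
        ∑ i ∈ Finset.range (m + 1 + 1), ∑ k ∈ Finset.range (m + 1 + 1),
          ((c i k : ℤ) : F) * a ^ i * b ^ k) := by
    have e1 : (b * u ^ (m + 1)) ^ (m + 1 + 1) = u ^ ((m + 1) * (m + 1 + 1)) * b ^ (m + 1 + 1) := by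
      rw [mul_pow, ← pow_mul, mul_comm]
    have e2 : Q ^ (m + 1 + 1) * u ^ ((m + 1 + 1) * m) =
        u ^ ((m + 1) * (m + 1 + 1)) * a ^ (m + 1 + 1) := by
      rw [← hau, mul_pow, mul_assoc, ← pow_add, mul_comm]
      congr 2
      ring
    have e3 : ∑ k ∈ Finset.range (m + 1 + 1), (∑ i ∈ Finset.range (m + 1 + 1),
        ((c i k : ℤ) : F) * Q ^ i * u ^ ((m + 1) * (m + 1 + 1) - i - (m + 1) * k)) *
          (b * u ^ (m + 1)) ^ k =
        u ^ ((m + 1) * (m + 1 + 1)) * ∑ i ∈ Finset.range (m + 1 + 1),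
          ∑ k ∈ Finset.range (m + 1 + 1), ((c i k : ℤ) : F) * a ^ i * b ^ k := by
      rw [Finset.sum_comm, Finset.mul_sum]
      refine Finset.sum_congr rfl fun k hk => ?_
      rw [Finset.sum_mul, Finset.mul_sum]
      refine Finset.sum_congr rfl fun i hi => ?_
      have hk' : k ≤ m + 1 := Nat.lt_succ_iff.1 (Finset.mem_range.1 hk)
      have hi' : i ≤ m + 1 := Nat.lt_succ_iff.1 (Finset.mem_range.1 hi)
      have h1 : (m + 1) * k ≤ (m + 1) * (m + 1) := Nat.mul_le_mul_left _ hk'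
      have h2 : (m + 1) * (m + 1 + 1) = (m + 1) * (m + 1) + (m + 1) := by ring
      have h3 : (m + 1) * (m + 1 + 1) =
          i + ((m + 1) * (m + 1 + 1) - i - (m + 1) * k) + (m + 1) * k := by omega
      generalize (m + 1) * (m + 1 + 1) - i - (m + 1) * k = e at h3
      rw [h3, ← hau, mul_pow, mul_pow, ← pow_mul, pow_add, pow_add]
      ring
    rw [e1, e2, e3]
    ring
  rw [key, h, mul_zero]

end Fermat.Agent.S15.A.Red.SepAlt
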