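/-
S15, block A, part A-RED, node SEP (second team helper47).  The abstract separation statement:
places near different cusps have different reductions, for every coordinate `x` such that
`J * u = Q` with `u`, `Q` polynomials in `x` (resp. `x⁻¹`) and `Q` a unit at the place.
-/
import Fermat.Agent.S15.A.Red.Defs
import Fermat.Agent.S15.A.Red.SepAlt.Integral

set_option autoImplicit false

noncomputable section

namespace Fermat.Agent.S15.A.Red.SepAlt

open AlgebraicCurve Fermat.Agent.S24 Fermat.Agent.S18 Fermat.Agent.S37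

variable {K F : Type*} [Field K] [Field F] [Algebra K F] [IsAlgClosed K] [FF.IsFF1 K F]

theorem mem_compRing_of_mem_chart {A : ValuationSubring K} {v : Place K F} {y : F}
    (hy : y ∈ compRing A v) {f : F} (hf : f ∈ chart A.toSubring y) : f ∈ compRing A v :=
  II.val_mem_of_mem_chart A y v (II.isRat_of_isAlgClosed v) hy f hf

theorem valuation_eq_one_iff {A : ValuationSubring K} {v : Place K F} {f : F}
    (hf : f ∈ compRing A v) : (compRing A v).valuation f = 1 ↔ II.resV A (val v f) ≠ 0 := by
  have h1 : (compRing A v).valuation f ≤ 1 := ((compRing A v).valuation_le_one_iff f).2 hf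
  rw [Ne, II.resV_eq_zero_iff A hf.2]
  constructor
  · intro h h2
    have h3 : f ∈ (compRing A v).nonunits := mem_nonunits_compRing.2 ⟨hf.1, h2⟩
    rw [ValuationSubring.mem_nonunits_iff, h] at h3
    exact lt_irrefl _ h3
  · intro h
    refine le_antisymm h1 (not_lt.1 fun h2 => h ?_)
    exact (mem_nonunits_compRing.1 ((ValuationSubring.mem_nonunits_iff _).2 h2)).2

/-- the argument on one chart. -/
theorem sep_aux (A : ValuationSubring K) (W W' : Place K F) (y : F) (hy : y ∈ compRing A W)
    (hy' : y ∈ compRing A W')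
    (hres : ∀ f ∈ chart A.toSubring y, II.resV A (val W f) = II.resV A (val W' f))
    {N : ℕ} {c : ℕ → ℕ → ℤ} (hN : 2 ≤ N) (hc : c N N = -1) {J J' u Q : F} (hmod : ModEq N c J J')
    (hu : u ∈ polyRing A.toSubring y) (hQ : Q ∈ polyRing A.toSubring y) (hJu : J * u = Q)
    (hVQ : (compRing A W).valuation Q = 1)
    (h1 : VInf (compRing A W) J J') (h2 : VZero (compRing A W') J J') : False := by
  have hN0 : N ≠ 0 := by omega
  -- transfer of `V f = 1`
  have tr : ∀ f ∈ chart A.toSubring y, (compRing A W).valuation f = 1 →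
      (compRing A W').valuation f = 1 := by
    intro f hf h
    rw [valuation_eq_one_iff (mem_compRing_of_mem_chart hy' hf), ← hres f hf,
      ← valuation_eq_one_iff (mem_compRing_of_mem_chart hy hf)]
    exact h
  have hb : J' * u ^ N ∈ chart A.toSubring y :=
    isIntegral_mul_pow (polyRing A.toSubring y) (by omega) hu hQ hJu hmod
  have hQc : Q ∈ chart A.toSubring y := polyRing_le_chart _ _ hQ
  -- at `W`
  have hJ' : (compRing A W).valuation J' = (compRing A W).valuation J ^ N := by
    rcases (dich (compRing A W) hN hc hmod h1.1).2 with h | h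
    · exact h
    · exfalso
      have h3 : 1 < (compRing A W).valuation J' := lt_trans h1.1 h1.2
      have h4 : (compRing A W).valuation J' ≤ (compRing A W).valuation J' ^ N :=
        le_self_pow₀ h3.le hN0
      rw [h] at h4
      exact absurd h1.2 (not_lt.2 h4)
  have hVb : (compRing A W).valuation (J' * u ^ N) = 1 := by
    rw [map_mul, map_pow, hJ', ← mul_pow, ← map_mul, hJu, hVQ, one_pow]
  -- at `W'`
  have hVb' := tr _ hb hVb
  have hVQ' := tr _ hQc hVQ
  have h5 : (compRing A W').valuation J ^ N = (compRing A W').valuation J' := by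
    have h6 : (compRing A W').valuation J ^ N * (compRing A W').valuation u ^ N = 1 := by
      rw [← mul_pow, ← map_mul, hJu, hVQ', one_pow]
    rw [map_mul, map_pow] at hVb'
    have hu0 : (compRing A W').valuation u ^ N ≠ 0 := by
      intro h0
      rw [h0, mul_zero] at h6
      exact zero_ne_one h6
    exact mul_right_cancel₀ hu0 (h6.trans hVb'.symm)
  have h7 : (compRing A W').valuation J ≤ (compRing A W').valuation J ^ N :=
    le_self_pow₀ h2.1.le hN0
  rw [h5] at h7
  exact absurd h2.2 (not_lt.2 h7)

/-- **the abstract SEP**. -/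
theorem sep_core (A : ValuationSubring K) (x : F) (W W' : Place K F)
    {N : ℕ} {c : ℕ → ℕ → ℤ} (hN : 2 ≤ N) (hc : c N N = -1) {J J' : F} (hmod : ModEq N c J J')
    (hfin : x ∈ compRing A W → ∃ u Q, u ∈ polyRing A.toSubring x ∧ Q ∈ polyRing A.toSubring x ∧
      J * u = Q ∧ (compRing A W).valuation Q = 1)
    (hinf : x ∉ compRing A W → ∃ u Q, u ∈ polyRing A.toSubring x⁻¹ ∧
      Q ∈ polyRing A.toSubring x⁻¹ ∧ J * u = Q ∧ (compRing A W).valuation Q = 1)
    (h1 : VInf (compRing A W) J J') (h2 : VZero (compRing A W') J J') :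
    II.red A x W ≠ II.red A x W' := by
  intro he
  by_cases hW : II.InFin A x W
  · by_cases hW' : II.InFin A x W'
    · rw [II.red_inl_of_inFin A x hW, II.red_inl_of_inFin A x hW'] at he
      have he' := Sum.inl_injective he
      obtain ⟨u, Q, hu, hQ, hJu, hVQ⟩ := hfin hW
      exact sep_aux A W W' x hW hW' (fun f hf => congrFun he' ⟨f, hf⟩) hN hc hmod hu hQ hJu hVQ
        h1 h2
    · rw [II.red_inl_of_inFin A x hW, II.red_inr_of_not_inFin A x hW'] at he
      exact Sum.inl_ne_inr he
  · by_cases hW' : II.InFin A x W'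
    · rw [II.red_inr_of_not_inFin A x hW, II.red_inl_of_inFin A x hW'] at he
      exact Sum.inr_ne_inl he
    · rw [II.red_inr_of_not_inFin A x hW, II.red_inr_of_not_inFin A x hW'] at he
      have he' := Sum.inr_injective he
      obtain ⟨u, Q, hu, hQ, hJu, hVQ⟩ := hinf hW
      exact sep_aux A W W' x⁻¹
        (II.inFin_inv_of_not_inFin A x W (II.isRat_of_isAlgClosed W) hW)
        (II.inFin_inv_of_not_inFin A x W' (II.isRat_of_isAlgClosed W') hW')
        (fun f hf => congrFun he' ⟨f, hf⟩) hN hc hmod hu hQ hJu hVQ h1 h2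

omit [IsAlgClosed K] [FF.IsFF1 K F] in
theorem self_mem_polyRing (S : Subring K) (x : F) : x ∈ polyRing S x := by
  rw [mem_polyRing_iff]
  refine ⟨Polynomial.X, fun i => ?_, Polynomial.aeval_X x⟩
  rw [Polynomial.coeff_X]
  split_ifs
  · exact S.one_mem
  · exact S.zero_mem

/-- the image of a rational prime below `A` is a nonunit of the composite ring. -/
theorem valuation_natCast_lt_one {A : ValuationSubring K} {ℓ : ℕ} (hA : A.LiesOverPrime ℓ)
    (W : Place K F) : (compRing A W).valuation (ℓ : F) < 1 := by
  rw [← ValuationSubring.mem_nonunits_iff, mem_nonunits_compRing, ← map_natCast (algebraMap K F),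
    val_algebraMap]
  exact ⟨ord_algebraMap_nonneg _, hA⟩

/-- `1 + ℓ m + z` is a unit if `z` is not. -/
theorem valuation_one_add_eq_one {O : ValuationSubring F} {ℓ z : F} (m : ℕ)
    (hℓ : O.valuation ℓ < 1) (hz : O.valuation z < 1) :
    O.valuation (1 + ℓ * (m : F) + z) = 1 := by
  rw [add_assoc]
  refine Valuation.map_one_add_of_lt _ (Valuation.map_add_lt _ ?_ hz)
  rw [map_mul]
  exact lt_of_le_of_lt (mul_le_of_le_one_right' ((O.valuation_le_one_iff _).2 (natCast_mem O m))) hℓ

end Fermat.Agent.S15.A.Red.SepAlt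

end
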