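/-
S15, block A, part A-RED, node SEP (second team helper47): the three coordinates `j`, `h₂`, `h₃`
separate the cusps.
-/
import Fermat.Agent.S15.A.Red.SepAlt.Core
import Fermat.Agent.Lib.ModEq.Field
import Fermat.Agent.Lib.Hauptmodul.Bar

set_option autoImplicit false

noncomputable section

namespace Fermat.Agent.S15.A.Red.SepAlt

open ModularCurve AlgebraicCurve Fermat.Agent.S24 Fermat.Agent.S18 Fermat.Agent.S27
  Fermat.Agent.S37
open Fermat.Agent.Lib.Hauptmodul

variable {M N : ℕ} [NeZero M] [NeZero N]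

omit [NeZero M] in
theorem modEq_jF (hN : N.Prime) (hNM : N ∣ M) :
    ModEq N (Fermat.Agent.Lib.ModEq.cPhi N) (jF M) (JF M N hNM) := by
  have h := Fermat.Agent.Lib.ModEq.modEq_JK Kbar N hN M 1 (one_dvd M) (by rwa [one_mul])
  have e : JF M N hNM = Fermat.Agent.S36.Mod.JK Kbar M (1 * N) (by rwa [one_mul]) := by
    apply Subtype.ext
    show Jser N = Jser (1 * N)
    congr 1
    exact (one_mul N).symm
  rw [e]
  exact h

section Abstract

variable {F : Type*} [Field F] {O : ValuationSubring F}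

/-- if `J x = Q(x)` with `Q(x)` integral, `x` integral and `1 < V J` then `V x < 1`. -/
theorem valuation_lt_one_of_mul_eq {J x Q : F} (h : J * x = Q) (hJ : 1 < O.valuation J)
    (hx : x ∈ O) (hQ : Q ∈ O) : O.valuation x < 1 := by
  refine lt_of_le_of_ne ((O.valuation_le_one_iff x).2 hx) fun h1 => ?_
  have h2 : O.valuation Q ≤ 1 := (O.valuation_le_one_iff Q).2 hQ
  rw [← h, map_mul, h1, mul_one] at h2
  exact absurd hJ (not_lt.2 h2)

theorem valuation_inv_lt_one {x : F} (hx : x ∉ O) : O.valuation x⁻¹ < 1 := by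
  rw [← ValuationSubring.mem_nonunits_iff, ValuationSubring.inv_mem_nonunits_iff]
  exact Or.inr hx

theorem ne_zero_of_notMem {x : F} (hx : x ∉ O) : x ≠ 0 := fun h => hx (h ▸ O.zero_mem)

end Abstract

theorem sepAt_j (hN : N.Prime) (hNM : N ∣ M) (A : ValuationSubring Kbar) :
    SepAt M N hNM A (jF M) := by
  intro W W' h1 h2
  refine sep_core A (jF M) W W' hN.two_le (Fermat.Agent.Lib.ModEq.cPhi_top N hN)
    (modEq_jF hN hNM) ?_ ?_ h1 h2
  · intro hx
    exact absurd h1.1 (not_lt.2 (((compRing A W).valuation_le_one_iff _).2 hx))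
  · intro hx
    exact ⟨(jF M)⁻¹, 1, self_mem_polyRing _ _, one_mem _,
      mul_inv_cancel₀ (ne_zero_of_notMem hx), map_one _⟩

theorem sepAt_h2 (hN : N.Prime) (hNM : N ∣ M) (h2 : 2 ∣ M) (A : ValuationSubring Kbar)
    (hA : A.LiesOverPrime 3) : SepAt M N hNM A (h2F M h2) := by
  intro W W' h1 h2'
  have hrel := jF_mul_h2F M h2
  set x := h2F M h2 with hx
  have h3 : (compRing A W).valuation ((3 : ℕ) : FN M) < 1 := valuation_natCast_lt_one hA W
  refine sep_core A x W W' hN.two_le (Fermat.Agent.Lib.ModEq.cPhi_top N hN)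
    (modEq_jF hN hNM) ?_ ?_ h1 h2'
  · intro hxO
    have hP := self_mem_polyRing A.toSubring x
    refine ⟨x, (1 + 256 * x) ^ 3, hP, pow_mem (add_mem (one_mem _) (mul_mem (ofNat_mem _ 256) hP)) 3,
      hrel, ?_⟩
    have hx1 : (compRing A W).valuation x < 1 :=
      valuation_lt_one_of_mul_eq hrel h1.1 hxO
        (pow_mem (add_mem (one_mem _) (mul_mem (ofNat_mem _ 256) hxO)) 3)
    have h4 : (compRing A W).valuation (256 * x) < 1 := by
      rw [map_mul]
      exact lt_of_le_of_lt (mul_le_of_le_one_left'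
        (((compRing A W).valuation_le_one_iff _).2 (ofNat_mem _ 256))) hx1
    rw [map_pow, Valuation.map_one_add_of_lt _ h4, one_pow]
  · intro hxO
    have hx0 : x ≠ 0 := ne_zero_of_notMem hxO
    have hP := self_mem_polyRing A.toSubring x⁻¹
    refine ⟨x⁻¹ ^ 2, (x⁻¹ + 256) ^ 3, pow_mem hP 2,
      pow_mem (add_mem hP (ofNat_mem _ 256)) 3, ?_, ?_⟩
    · have e : jF M * x⁻¹ ^ 2 = (jF M * x) * x⁻¹ ^ 3 := by field_simp
      rw [e, hrel]
      field_simp
    · have e : x⁻¹ + 256 = 1 + ((3 : ℕ) : FN M) * ((85 : ℕ) : FN M) + x⁻¹ := by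
        push_cast; ring
      rw [map_pow, e, valuation_one_add_eq_one 85 h3 (valuation_inv_lt_one hxO), one_pow]

theorem sepAt_h3 (hN : N.Prime) (hNM : N ∣ M) (h3 : 3 ∣ M) (A : ValuationSubring Kbar)
    (hA : A.LiesOverPrime 2) : SepAt M N hNM A (h3F M h3) := by
  intro W W' h1 h2'
  have hrel := jF_mul_h3F M h3
  set x := h3F M h3 with hx
  have h2 : (compRing A W).valuation ((2 : ℕ) : FN M) < 1 := valuation_natCast_lt_one hA W
  refine sep_core A x W W' hN.two_le (Fermat.Agent.Lib.ModEq.cPhi_top N hN)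
    (modEq_jF hN hNM) ?_ ?_ h1 h2'
  · intro hxO
    have hP := self_mem_polyRing A.toSubring x
    refine ⟨x, (1 + 27 * x) * (1 + 243 * x) ^ 3, hP,
      mul_mem (add_mem (one_mem _) (mul_mem (ofNat_mem _ 27) hP))
        (pow_mem (add_mem (one_mem _) (mul_mem (ofNat_mem _ 243) hP)) 3), hrel, ?_⟩
    have hx1 : (compRing A W).valuation x < 1 :=
      valuation_lt_one_of_mul_eq hrel h1.1 hxO
        (mul_mem (add_mem (one_mem _) (mul_mem (ofNat_mem _ 27) hxO))
          (pow_mem (add_mem (one_mem _) (mul_mem (ofNat_mem _ 243) hxO)) 3))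
    have h4 : (compRing A W).valuation (27 * x) < 1 := by
      rw [map_mul]
      exact lt_of_le_of_lt (mul_le_of_le_one_left'
        (((compRing A W).valuation_le_one_iff _).2 (ofNat_mem _ 27))) hx1
    have h5 : (compRing A W).valuation (243 * x) < 1 := by
      rw [map_mul]
      exact lt_of_le_of_lt (mul_le_of_le_one_left'
        (((compRing A W).valuation_le_one_iff _).2 (ofNat_mem _ 243))) hx1
    rw [map_mul, map_pow, Valuation.map_one_add_of_lt _ h4, Valuation.map_one_add_of_lt _ h5,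
      one_pow, one_mul]
  · intro hxO
    have hx0 : x ≠ 0 := ne_zero_of_notMem hxO
    have hP := self_mem_polyRing A.toSubring x⁻¹
    refine ⟨x⁻¹ ^ 3, (x⁻¹ + 27) * (x⁻¹ + 243) ^ 3, pow_mem hP 3,
      mul_mem (add_mem hP (ofNat_mem _ 27)) (pow_mem (add_mem hP (ofNat_mem _ 243)) 3), ?_, ?_⟩
    · have e : jF M * x⁻¹ ^ 3 = (jF M * x) * x⁻¹ ^ 4 := by field_simp
      rw [e, hrel]
      field_simp
    · have e : x⁻¹ + 27 = 1 + ((2 : ℕ) : FN M) * ((13 : ℕ) : FN M) + x⁻¹ := by
        push_cast; ring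
      have e' : x⁻¹ + 243 = 1 + ((2 : ℕ) : FN M) * ((121 : ℕ) : FN M) + x⁻¹ := by
        push_cast; ring
      rw [map_mul, map_pow, e, e', valuation_one_add_eq_one 13 h2 (valuation_inv_lt_one hxO),
        valuation_one_add_eq_one 121 h2 (valuation_inv_lt_one hxO), one_pow, one_mul]

end Fermat.Agent.S15.A.Red.SepAlt

end
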